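import Fermat.Agent.S15.Cusp.Adm
import Fermat.Agent.S15.M1.U.Div
import Fermat.Agent.GAL.Igusa.Char0

/-!
# S15 / block ADM (helper51): `cusp p ≠ 0` by the genus, and `∃ r, Adm p r`

* `genusFF_eq_zero_of_simple_pole` : a function with exactly one pole, simple, forces genus `0` (Riemann-Roch);
* `genusFormula_pos` : `g(X₀(p)) > 0` for `p` prime, `p ∉ {2, 3, 5, 7, 13}`;
* `cusp_ne_zero`, `sub_one_nsmul_cusp`, `exists_adm`.
-/

set_option autoImplicit false
set_option linter.unusedSectionVars false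

noncomputable section

namespace Fermat.Agent.S15.CuspAdm

open AlgebraicCurve ModularCurve Fermat.Agent.Lib.RR Fermat.Agent.GAL Fermat.Agent.GAL.RED
  Fermat.Agent.S24 Fermat.Agent.S37 Fermat.Agent.S15.Red

/-! ## a simple pole forces genus `0` -/

section Abs

variable {K F : Type*} [Field K] [Field F] [Algebra K F] [Lib.RR.IsFF K F] [IsAlgClosed K]

theorem succ_le_ell {P : Place K F} {f : F} (hf : f ≠ 0) (hP : P.ord f = -1)
    (hpole : ∀ v : Place K F, v ≠ P → 0 ≤ v.ord f) (n : ℕ) : n + 1 ≤ ell (n • pt P) := by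
  induction n with
  | zero => rw [zero_smul, ell_zero]
  | succ n ih =>
    have h0 : (0 : Divisor K F) ≤ divOf f + pt P := by
      intro v
      rw [Finsupp.add_apply, divOf_apply, Finsupp.coe_zero, Pi.zero_apply]
      by_cases hv : v = P
      · subst hv
        rw [hP, Finsupp.single_eq_same]
        norm_num
      · rw [Finsupp.single_eq_of_ne hv, add_zero]
        exact hpole v hv
    have hle : riemannRochSpace (n • pt P) ≤ riemannRochSpace ((n + 1) • pt P) := by
      apply L_mono
      rw [succ_nsmul]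
      exact le_add_pt _ _
    have hmem : f ^ (n + 1) ∈ riemannRochSpace ((n + 1) • pt P) := by
      rw [mem_L_iff]
      right
      rw [divOf_pow, ← nsmul_add]
      exact nsmul_nonneg h0 _
    have hnot : f ^ (n + 1) ∉ riemannRochSpace (n • pt P) := by
      rw [mem_L_iff]
      rintro (h | h)
      · exact pow_ne_zero _ hf h
      · have h1 := h P
        rw [divOf_pow, Finsupp.add_apply, Finsupp.smul_apply, Finsupp.smul_apply, divOf_apply, hP,
          Finsupp.single_eq_same, Finsupp.coe_zero, Pi.zero_apply] at h1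
        simp only [nsmul_eq_mul] at h1
        push_cast at h1
        linarith
    have hlt : riemannRochSpace (n • pt P) < riemannRochSpace ((n + 1) • pt P) :=
      lt_of_le_of_ne hle (fun h => hnot (h ▸ hmem))
    have := Submodule.finrank_lt_finrank_of_lt hlt
    unfold ell at ih ⊢
    omega

theorem genusFF_eq_zero_of_simple_pole {P : Place K F} {f : F} (hf : f ≠ 0) (hP : P.ord f = -1)
    (hpole : ∀ v : Place K F, v ≠ P → 0 ≤ v.ord f) : genusFF K F = 0 := by
  have h1 := succ_le_ell hf hP hpole (2 * genusFF K F)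
  have hdeg : Divisor.degree ((2 * genusFF K F) • pt P) = 2 * (genusFF K F : ℤ) := by
    rw [map_nsmul, degree_pt, RED.deg_eq_one]
    simp
  have h2 := ell_eq_of_lt_degree' (D := (2 * genusFF K F) • pt P) (by rw [hdeg]; omega)
  rw [hdeg] at h2
  omega

end Abs

/-! ## numerics -/

theorem card_roots_le {k : Type*} [Field k] (P : Polynomial k) (hP : P ≠ 0) :
    Nat.card {x : k // P.eval x = 0} ≤ P.natDegree := by
  classical
  have h : {x : k | P.eval x = 0} = (P.roots.toFinset : Set k) := by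
    ext x
    simp [hP, Polynomial.IsRoot]
  calc Nat.card {x : k // P.eval x = 0} = Nat.card ({x : k | P.eval x = 0} : Set k) := rfl
    _ = Nat.card ((P.roots.toFinset : Set k) : Set k) := by rw [h]
    _ = P.roots.toFinset.card := Nat.card_eq_card_toFinset _ |>.trans (by simp)
    _ ≤ Multiset.card P.roots := Multiset.toFinset_card_le _
    _ ≤ P.natDegree := Polynomial.card_roots' P

theorem nuTwo_le {p : ℕ} (hp : p.Prime) : nuTwo p ≤ 2 := by
  haveI : Fact p.Prime := ⟨hp⟩
  have hd : (Polynomial.X ^ 2 + 1 : Polynomial (ZMod p)).natDegree = 2 := by compute_degree!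
  have h0 : (Polynomial.X ^ 2 + 1 : Polynomial (ZMod p)) ≠ 0 := by
    intro h
    rw [h] at hd
    simp at hd
  have h := card_roots_le _ h0
  rw [hd] at h
  simpa [nuTwo] using h

theorem nuThree_le {p : ℕ} (hp : p.Prime) : nuThree p ≤ 2 := by
  haveI : Fact p.Prime := ⟨hp⟩
  have hd : (Polynomial.X ^ 2 + Polynomial.X + 1 : Polynomial (ZMod p)).natDegree = 2 := by
    compute_degree!
  have h0 : (Polynomial.X ^ 2 + Polynomial.X + 1 : Polynomial (ZMod p)) ≠ 0 := by
    intro h
    rw [h] at hd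
    simp at hd
  have h := card_roots_le _ h0
  rw [hd] at h
  simpa [nuThree] using h

theorem nuTwo_eleven : nuTwo 11 = 0 := by
  unfold nuTwo
  have : IsEmpty {x : ZMod 11 // x ^ 2 + 1 = 0} := ⟨fun x => by
    have h : ∀ y : ZMod 11, y ^ 2 + 1 ≠ 0 := by decide
    exact h x.1 x.2⟩
  exact Nat.card_of_isEmpty

theorem nuThree_eleven : nuThree 11 = 0 := by
  unfold nuThree
  have : IsEmpty {x : ZMod 11 // x ^ 2 + x + 1 = 0} := ⟨fun x => by
    have h : ∀ y : ZMod 11, y ^ 2 + y + 1 ≠ 0 := by decide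
    exact h x.1 x.2⟩
  exact Nat.card_of_isEmpty

theorem cuspCount_prime' {q : ℕ} (hq : q.Prime) : cuspCount q = 2 := by
  rw [cuspCount, hq.divisors, Finset.sum_pair hq.one_lt.ne]
  simp [Nat.div_self hq.pos]

theorem dedekindPsi_prime' {q : ℕ} (hq : q.Prime) : dedekindPsi q = q + 1 := by
  have h := Lib.Gamma0Cosets.dedekindPsi_prime_pow hq 0
  rwa [zero_add, pow_one, pow_zero] at h

theorem genusFormula_pos {p : ℕ} (hp : p.Prime) (hp' : p ∉ ({2, 3, 5, 7, 13} : Finset ℕ)) :
    0 < genusFormula p := by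
  unfold genusFormula
  rw [cuspCount_prime' hp, dedekindPsi_prime' hp]
  by_cases h11 : p = 11
  · subst h11
    rw [nuTwo_eleven, nuThree_eleven]
    norm_num
  · have h17 : 17 ≤ p := by
      by_contra hlt
      push Not at hlt
      simp only [Finset.mem_insert, Finset.mem_singleton, not_or] at hp'
      interval_cases p <;> first | omega | (exact absurd hp (by norm_num))
    have h2 : (nuTwo p : ℚ) ≤ 2 := by exact_mod_cast nuTwo_le hp
    have h3 : (nuThree p : ℚ) ≤ 2 := by exact_mod_cast nuThree_le hp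
    have h17' : (17 : ℚ) ≤ p := by exact_mod_cast h17
    push_cast
    linarith

/-! ## the cuspidal class -/

variable {p : ℕ} [NeZero p]

theorem genusFF_FN' : (genusFF Kbar (FN p) : ℚ) = genusFormula p := by
  have h := Igusa.genusFF_char_zero p
  unfold Igusa.E at h
  rw [← Igusa.modularFunctionFieldBar_eq p] at h
  exact h

/-- two distinct points of `X₀(p)` are not linearly equivalent (`g ≥ 1`). -/
theorem ptCls_ne_zero (hp : p.Prime) (hp' : p ∉ ({2, 3, 5, 7, 13} : Finset ℕ))
    {x y : Place Kbar (FN p)} (hxy : x ≠ y) : ptCls p x y ≠ 0 := by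
  intro h
  obtain ⟨f, hf, hd⟩ := (ptCls_eq_zero_iff x y).1 h
  have hord : ∀ v : Place Kbar (FN p), v.ord f = ptDiv p x y v := fun v => by
    rw [← hd, divOf_apply]
  have h0 : genusFF Kbar (FN p) = 0 := by
    refine genusFF_eq_zero_of_simple_pole (P := y) hf ?_ ?_
    · rw [hord, ptDiv, Finsupp.sub_apply, Finsupp.single_eq_same, Finsupp.single_eq_of_ne hxy.symm]
      norm_num
    · intro v hv
      rw [hord, ptDiv, Finsupp.sub_apply, Finsupp.single_eq_of_ne hv, sub_zero]
      by_cases hvx : v = x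
      · subst hvx
        rw [Finsupp.single_eq_same]
        norm_num
      · rw [Finsupp.single_eq_of_ne hvx]
  have h1 := genusFormula_pos hp hp'
  rw [← genusFF_FN', h0] at h1
  simp at h1

/-- injectivity of the Abel-Jacobi map. -/
theorem ptCls_left_injective (hp : p.Prime) (hp' : p ∉ ({2, 3, 5, 7, 13} : Finset ℕ))
    {x y z : Place Kbar (FN p)} (h : ptCls p x z = ptCls p y z) : x = y := by
  by_contra hxy
  apply ptCls_ne_zero hp hp' hxy
  rw [← ptCls_sub x y z, h, sub_self]

theorem cusp_ne_zero (hp : p.Prime) (hp' : p ∉ ({2, 3, 5, 7, 13} : Finset ℕ)) : cusp p ≠ 0 :=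
  ptCls_ne_zero hp hp' (cuspFacts p hp).ne

theorem sub_one_nsmul_cusp (hp : p.Prime) : (p - 1) • cusp p = 0 := by
  apply nsmul_cusp_eq_zero_of_divOf (M1.U.uF_ne_zero p hp)
  rw [M1.U.divOf_uF p hp, ← natCast_zsmul, Nat.cast_sub hp.one_lt.le, Nat.cast_one]

/-- **ADM.** -/
theorem exists_adm (hp : p.Prime) (hp' : p ∉ ({2, 3, 5, 7, 13} : Finset ℕ)) : ∃ r : ℕ, Adm p r :=
  exists_adm_of hp hp' (sub_one_nsmul_cusp hp) (cusp_ne_zero hp hp')

theorem adm_dvd (hp : p.Prime) {r : ℕ} (h : Adm p r) : r ∣ p - 1 :=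
  adm_dvd_sub_one h (sub_one_nsmul_cusp hp)

end Fermat.Agent.S15.CuspAdm
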