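import Fermat.Agent.S15.Cusp.Ord
import Fermat.Agent.GAL.Igusa.Final
import Fermat.Agent.GAL.INJ.Neat
import Fermat.Agent.GAL.INJ.LevelDescent
import Fermat.Agent.GAL.INJ.ResAlgClosed

/-!
# S15 / CUSP : (INJC) injectivity of the reduction on the cuspidal group
-/

set_option autoImplicit false

noncomputable section

namespace Fermat.Agent.S15.Cusp

open AlgebraicCurve ModularCurve Fermat.Agent.Lib.RR Fermat.Agent.GAL Fermat.Agent.GAL.RED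
  Fermat.Agent.GAL.Hecke Fermat.Agent.GAL.Igusa Fermat.Agent.S24 Fermat.Agent.S37

variable {p : ℕ} [NeZero p]

variable {A : ValuationSubring Kbar} {c : ℕ} [NeZero c]
  [IsAlgClosed (IsLocalRing.ResidueField ↥A)]
  [Lib.RR.IsFF (IsLocalRing.ResidueField ↥A) (E (IsLocalRing.ResidueField ↥A) (p * c))]
  (hM : ((p * c : ℕ) : (IsLocalRing.ResidueField ↥A)) ≠ 0)
  (hg : genusFF Kbar (FN (p * c)) =
    genusFF (IsLocalRing.ResidueField ↥A) (E (IsLocalRing.ResidueField ↥A) (p * c)))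
  {r : Place Kbar (FN (p * c)) →
    Place (IsLocalRing.ResidueField ↥A) (E (IsLocalRing.ResidueField ↥A) (p * c))}
  (hr : IsRedMap (redFN A (p * c) hM) r)

include hg hr

/-- **(M4) INJC**: the reduction map is injective on the cuspidal group, `ℓ ≥ 5`.
PROOF.  `n = 0` trivial.  `hR` gives `v ≠ 0` with `n • Rdiv r (ptDiv ..) = divOf v`.  Write `p - 1 = ℓ^β M'`, `ℓ ∤ M'` (`Nat.exists_eq_pow_mul_and_not_dvd`).
(ORD') `dvd_of_zsmul_Rdiv_eq`: `ℓ^β ∣ 24 n`, and `ℓ ∤ 24` (`ℓ ≥ 5` prime) so `ℓ^β ∣ n`, `n = ℓ^β n'`.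
`D := n • ptDiv p (zz p) (oo p)`: `M' • D = n' • ((p-1) • ptDiv ..) = n' • divOf u = divOf (u ^ n')` (`M1.U.divOf_uF p hp`, `divOf_zpow`), `u := M1.uF p`, `u ^ n' ≠ 0`;
`Rdiv r D = n • Rdiv r (ptDiv ..) ∈ prinN` (`map_zsmul`).  `S37.principal_of_Rdiv_mem hM hg hr M' (hM' : (M' : k) ≠ 0) hINJ D _ _ _ _` gives `D = divOf w`;
`(zsmul_cusp_eq_zero_iff p n).2`.  `(M' : k) ≠ 0` by `CharP.cast_eq_zero_iff`.  `hINJ : Hecke.INJ p M' A` :=
`INJ.hecke_INJ_descent A p (p * c) (Dvd.intro _ rfl) hM M' hM' (INJ.hecke_INJ_neat Igusa.cuspUpper Igusa.cuspLower A (p * c) hM hneat M' hM')`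
(check the exact argument lists in `GAL/INJ/LevelDescent.lean`, `GAL/INJ/Neat.lean` and their use in `S37/Main.lean`). -/
theorem zsmul_cusp_eq_zero_of_mem_prinN (hp : p.Prime) (hneat : 4 ∣ p * c ∨ 9 ∣ p * c)
    (ℓ : ℕ) (hℓ : ℓ.Prime) (hℓ5 : 5 ≤ ℓ) [CharP (IsLocalRing.ResidueField ↥A) ℓ]
    (n : ℤ) (hR : n • Rdiv r (ptDiv p (zz p) (oo p)) ∈ prinN A p c) : n • cusp p = 0 := by
  by_cases hn : n = 0
  · rw [hn]; exact zero_zsmul _
  have : NeZero ℓ := ⟨hℓ.ne_zero⟩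
  have : Fact ℓ.Prime := ⟨hℓ⟩
  obtain ⟨v, hv, -, hnv⟩ := id hR
  have hp1 : p - 1 ≠ 0 := by have := hp.two_le; omega
  obtain ⟨β, M', hM'd, hM'⟩ := Nat.exists_eq_pow_mul_and_not_dvd hp1 ℓ hℓ.ne_one
  have h24 := dvd_of_zsmul_Rdiv_eq hp hM hg hr ℓ n hn v hv hnv β ⟨M', hM'⟩
  have hcop : IsCoprime ((ℓ ^ β : ℕ) : ℤ) 24 := by
    have h1 : Nat.Coprime (ℓ ^ β) 24 := by
      apply Nat.Coprime.pow_left
      rw [Nat.Prime.coprime_iff_not_dvd hℓ]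
      intro hd
      have h2 : ℓ ∣ 2 ^ 3 * 3 := by norm_num; exact hd
      rcases (Nat.Prime.dvd_mul hℓ).1 h2 with h3 | h3
      · have := (Nat.prime_dvd_prime_iff_eq hℓ Nat.prime_two).1 (hℓ.dvd_of_dvd_pow h3)
        omega
      · have := (Nat.prime_dvd_prime_iff_eq hℓ Nat.prime_three).1 h3
        omega
    exact_mod_cast Nat.isCoprime_iff_coprime.2 h1
  obtain ⟨n', hn'⟩ := hcop.dvd_of_dvd_mul_left h24
  have hM'k : (M' : IsLocalRing.ResidueField ↥A) ≠ 0 := by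
    rw [Ne, CharP.cast_eq_zero_iff (IsLocalRing.ResidueField ↥A) ℓ]
    exact hM'd
  have hINJ : Hecke.INJ p M' A :=
    INJ.hecke_INJ_descent A p (p * c) (Dvd.intro _ rfl) hM M' hM'k
      (INJ.hecke_INJ_neat Igusa.cuspUpper Igusa.cuspLower A (p * c) hM hneat M' hM'k)
  have hu0 : M1.uF p ^ n' ≠ 0 := zpow_ne_zero _ (M1.U.uF_ne_zero p hp)
  have hD : M' • (n • ptDiv p (zz p) (oo p)) = divOf (K := Kbar) (M1.uF p ^ n') := by
    rw [divOf_zpow, M1.U.divOf_uF p hp, smul_smul, ← natCast_zsmul, smul_smul]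
    congr 1
    have h3 : ((p : ℤ) - 1) = ((ℓ ^ β * M' : ℕ) : ℤ) := by
      rw [← hM', Nat.cast_sub hp.one_lt.le, Nat.cast_one]
    rw [h3, hn']
    push_cast
    ring
  have hR' : Rdiv r (n • ptDiv p (zz p) (oo p)) ∈ prinN A p c := by
    rw [map_zsmul]
    exact hR
  obtain ⟨w, hw, hDw⟩ := S37.principal_of_Rdiv_mem hM hg hr M' hM'k hINJ _ _ hu0 hD hR'
  exact (zsmul_cusp_eq_zero_iff p n).2 ⟨w, hw, hDw⟩

end Fermat.Agent.S15.Cusp
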