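import Fermat.Agent.S15.Red.Dual

/-!
# S15 / block ADM (helper51): wrappers around `ptDiv`, `ptCls`, `cusp`, `zz`, `Adm`

* `ptDiv_mem_degZero`, `ptCls_eq_mk`, `ptCls_add`, `ptCls_self`, `neg_ptCls`, `ptCls_zz_add_cusp`, ...
* `gal_smul_oo`, `gal_smul_zz`, `smul_ptCls`, `ptCls_mem_JQ`, `cusp_mem_JQ`
* `ptCls_eq_zero_iff`, `zsmul_ptCls_eq_zero_iff`, `nsmul_cusp_eq_zero_of_divOf`
* `exists_adm_of` : `(p - 1) • cusp p = 0 → cusp p ≠ 0 → ∃ r, Adm p r`
-/

set_option autoImplicit false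
set_option linter.unusedSectionVars false

noncomputable section

namespace Fermat.Agent.S15.CuspAdm

open AlgebraicCurve ModularCurve Fermat.Agent.Lib.RR Fermat.Agent.GAL Fermat.Agent.GAL.RED
  Fermat.Agent.S24 Fermat.Agent.S37 Fermat.Agent.S15.Red

variable {p : ℕ} [NeZero p]

/-! ## `ptDiv`, `ptCls` -/

theorem degree_single_one (x : Place Kbar (FN p)) :
    Divisor.degree (Finsupp.single x (1 : ℤ) : Divisor Kbar (FN p)) = 1 := by
  rw [RED.degree_eq_sum, Finsupp.sum_single_index rfl]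

theorem degree_ptDiv (x y : Place Kbar (FN p)) : Divisor.degree (ptDiv p x y) = 0 := by
  unfold ptDiv
  rw [map_sub, degree_single_one, degree_single_one, sub_self]

theorem ptDiv_mem_degZero (x y : Place Kbar (FN p)) :
    ptDiv p x y ∈ Divisor.degZero (K := Kbar) (F := FN p) := by
  rw [Divisor.mem_degZero]
  exact degree_ptDiv x y

theorem ptCls_eq_mk (x y : Place Kbar (FN p)) :
    ptCls p x y = Pic0.mk ⟨ptDiv p x y, ptDiv_mem_degZero x y⟩ := by
  unfold ptCls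
  rw [dif_pos (ptDiv_mem_degZero x y)]

theorem ptDiv_add (x y z : Place Kbar (FN p)) : ptDiv p x y + ptDiv p y z = ptDiv p x z := by
  unfold ptDiv
  abel

theorem ptDiv_self (x : Place Kbar (FN p)) : ptDiv p x x = 0 := by
  unfold ptDiv
  rw [sub_self]

theorem neg_ptDiv (x y : Place Kbar (FN p)) : -ptDiv p x y = ptDiv p y x := by
  unfold ptDiv
  rw [neg_sub]

theorem mk_add' (D E : Divisor.degZero (K := Kbar) (F := FN p)) :
    (Pic0.mk (D + E) : JZero p) = Pic0.mk D + Pic0.mk E := rfl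

theorem mk_zero' : (Pic0.mk (0 : Divisor.degZero (K := Kbar) (F := FN p)) : JZero p) = 0 := rfl

/-- `((x) - (y)) + ((y) - (z)) = (x) - (z)`. -/
theorem ptCls_add (x y z : Place Kbar (FN p)) : ptCls p x y + ptCls p y z = ptCls p x z := by
  rw [ptCls_eq_mk, ptCls_eq_mk, ptCls_eq_mk, ← mk_add']
  exact congrArg Pic0.mk (Subtype.ext (ptDiv_add x y z))

theorem ptCls_self (x : Place Kbar (FN p)) : ptCls p x x = 0 := by
  rw [ptCls_eq_mk, ← mk_zero']
  exact congrArg Pic0.mk (Subtype.ext (ptDiv_self x))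

theorem neg_ptCls (x y : Place Kbar (FN p)) : -ptCls p x y = ptCls p y x := by
  rw [neg_eq_iff_add_eq_zero, ptCls_add, ptCls_self]

theorem ptCls_sub (x y z : Place Kbar (FN p)) : ptCls p x z - ptCls p y z = ptCls p x y := by
  rw [sub_eq_add_neg, neg_ptCls, ptCls_add]

theorem ptCls_sub' (x y z : Place Kbar (FN p)) : ptCls p x y - ptCls p x z = ptCls p z y := by
  rw [sub_eq_add_neg, neg_ptCls, add_comm, ptCls_add]

/-- `((x) - (0)) + c = (x) - (∞)`. -/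
theorem ptCls_zz_add_cusp (x : Place Kbar (FN p)) :
    ptCls p x (zz p) + cusp p = ptCls p x (oo p) :=
  ptCls_add x (zz p) (oo p)

/-- `(x) - (0) = ((x) - (∞)) - c`. -/
theorem ptCls_zz_eq (x : Place Kbar (FN p)) : ptCls p x (zz p) = ptCls p x (oo p) - cusp p := by
  rw [← ptCls_zz_add_cusp x, add_sub_cancel_right]

theorem ptCls_oo_zz : ptCls p (oo p) (zz p) = -cusp p := by
  unfold cusp
  rw [neg_ptCls]

theorem cusp_eq_mk : cusp p = Pic0.mk ⟨ptDiv p (zz p) (oo p), ptDiv_mem_degZero _ _⟩ :=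
  ptCls_eq_mk _ _

/-! ## principal divisors -/

theorem mk_zsmul' (D : Divisor.degZero (K := Kbar) (F := FN p)) (n : ℤ) :
    (Pic0.mk (n • D) : JZero p) = n • Pic0.mk D :=
  map_zsmul (QuotientAddGroup.mk' ((Divisor.principal (K := Kbar) (F := FN p)).addSubgroupOf
          (Divisor.degZero (K := Kbar) (F := FN p)))) n D

theorem zsmul_ptCls_eq_zero_iff (n : ℤ) (x y : Place Kbar (FN p)) :
    n • ptCls p x y = 0 ↔ ∃ f : FN p, f ≠ 0 ∧ divOf (K := Kbar) f = n • ptDiv p x y := by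
  rw [ptCls_eq_mk, ← mk_zsmul', Main_mk_eq_zero_iff]
  constructor
  · rintro ⟨f, hf, h⟩
    exact ⟨f, hf, (Main_eq_divOf h).symm⟩
  · rintro ⟨f, hf, h⟩
    refine ⟨f, hf, fun v => ?_⟩
    rw [← divOf_apply (K := Kbar) f v, h]
    rfl

theorem nsmul_ptCls_eq_zero_iff (n : ℕ) (x y : Place Kbar (FN p)) :
    n • ptCls p x y = 0 ↔ ∃ f : FN p, f ≠ 0 ∧ divOf (K := Kbar) f = n • ptDiv p x y := by
  rw [← natCast_zsmul, zsmul_ptCls_eq_zero_iff]
  simp only [natCast_zsmul]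

theorem ptCls_eq_zero_iff (x y : Place Kbar (FN p)) :
    ptCls p x y = 0 ↔ ∃ f : FN p, f ≠ 0 ∧ divOf (K := Kbar) f = ptDiv p x y := by
  have h := zsmul_ptCls_eq_zero_iff 1 x y
  simpa only [one_zsmul] using h

/-- From **DivU**. -/
theorem nsmul_cusp_eq_zero_of_divOf {n : ℕ} {u : FN p} (hu : u ≠ 0)
    (h : divOf (K := Kbar) u = n • ptDiv p (zz p) (oo p)) : n • cusp p = 0 :=
  (nsmul_ptCls_eq_zero_iff n _ _).2 ⟨u, hu, h⟩

/-- From **DivU**, other sign. -/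
theorem nsmul_cusp_eq_zero_of_divOf' {n : ℕ} {u : FN p} (hu : u ≠ 0)
    (h : divOf (K := Kbar) u = n • ptDiv p (oo p) (zz p)) : n • cusp p = 0 := by
  have h1 := (nsmul_ptCls_eq_zero_iff n _ _).2 ⟨u, hu, h⟩
  rw [ptCls_oo_zz, neg_nsmul, neg_eq_zero] at h1
  exact h1

/-! ## Galois -/

theorem gal_smul_oo (σ : GQ) : gal p σ • oo p = oo p := S17.Unr.smul_oo p σ

theorem gal_smul_zz (hp : p.Prime) (σ : GQ) : gal p σ • zz p = zz p := by
  have C := cuspFacts p hp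
  have h1 : (gal p σ • zz p).ord (jF p) = -(p : ℤ) := by
    have h := SemilinearAut.ord_smul (gal p σ) (zz p) (jF p)
    rw [gal_smul_jF, C.zz_j] at h
    exact h
  have hp0 : (2 : ℤ) ≤ p := by exact_mod_cast hp.two_le
  rcases C.pole_j (gal p σ • zz p) (by rw [h1]; omega) with h | h
  · rw [h, C.oo_j] at h1
    omega
  · exact h

theorem gal_smul_ptDiv (σ : GQ) (x y : Place Kbar (FN p)) :
    gal p σ • ptDiv p x y = ptDiv p (gal p σ • x) (gal p σ • y) := by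
  unfold ptDiv
  rw [smul_sub, SemilinearAut.smul_single, SemilinearAut.smul_single]

theorem smul_ptCls (σ : GQ) (x y : Place Kbar (FN p)) :
    σ • ptCls p x y = ptCls p (gal p σ • x) (gal p σ • y) := by
  rw [ptCls_eq_mk, ptCls_eq_mk]
  show gal p σ • (Pic0.mk _ : JZero p) = _
  rw [SemilinearAut.pic0_smul_mk]
  exact congrArg Pic0.mk (Subtype.ext (gal_smul_ptDiv σ x y))

theorem ptCls_mem_JQ {x y : Place Kbar (FN p)} (hx : ∀ σ : GQ, gal p σ • x = x)
    (hy : ∀ σ : GQ, gal p σ • y = y) : ptCls p x y ∈ JQ p := by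
  intro σ
  rw [smul_ptCls, hx, hy]

theorem ptCls_oo_mem_JQ {x : Place Kbar (FN p)} (hx : ∀ σ : GQ, gal p σ • x = x) :
    ptCls p x (oo p) ∈ JQ p :=
  ptCls_mem_JQ hx gal_smul_oo

theorem ptCls_zz_mem_JQ (hp : p.Prime) {x : Place Kbar (FN p)} (hx : ∀ σ : GQ, gal p σ • x = x) :
    ptCls p x (zz p) ∈ JQ p :=
  ptCls_mem_JQ hx (gal_smul_zz hp)

theorem cusp_mem_JQ (hp : p.Prime) : cusp p ∈ JQ p :=
  ptCls_mem_JQ (gal_smul_zz hp) gal_smul_oo

/-! ## `Adm` -/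

/-- `∃ r, Adm p r` from the two facts on the cuspidal class. -/
theorem exists_adm_of (hp : p.Prime) (hp' : p ∉ ({2, 3, 5, 7, 13} : Finset ℕ))
    (h1 : (p - 1) • cusp p = 0) (h2 : cusp p ≠ 0) : ∃ r : ℕ, Adm p r := by
  have hdvd : addOrderOf (cusp p) ∣ p - 1 := addOrderOf_dvd_of_nsmul_eq_zero h1
  have hp1 : p - 1 ≠ 0 := by have := hp.two_le; omega
  have h0 : addOrderOf (cusp p) ≠ 0 := fun h => hp1 (by rw [h] at hdvd; exact zero_dvd_iff.1 hdvd)
  have hne1 : addOrderOf (cusp p) ≠ 1 := fun h => h2 (AddMonoid.addOrderOf_eq_one_iff.1 h)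
  obtain ⟨r, hr, hrd⟩ := Nat.exists_prime_and_dvd hne1
  refine ⟨r, hp, hp', hr, hrd, h0, ?_⟩
  rintro rfl
  have := Nat.le_of_dvd (Nat.pos_of_ne_zero hp1) (hrd.trans hdvd)
  have := hp.two_le
  omega

/-- every admissible `r` divides `p - 1`. -/
theorem adm_dvd_sub_one {r : ℕ} (h : Adm p r) (h1 : (p - 1) • cusp p = 0) : r ∣ p - 1 :=
  h.2.2.2.1.trans (addOrderOf_dvd_of_nsmul_eq_zero h1)

end Fermat.Agent.S15.CuspAdm
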