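import Fermat.Agent.S15.Cusp.Prime

/-!
# S15 / CUSP : exports.  `(p - 1) ∣ 24 · ord(cusp)`, `cusp p ≠ 0` (no genus), a good prime
-/

set_option autoImplicit false

noncomputable section

namespace Fermat.Agent.S15.Cusp

open AlgebraicCurve ModularCurve

variable {p : ℕ} [NeZero p]

/-- **(M1)** `(p - 1) ∣ 24 · ord(cusp)`.  PROOF: pass to `(24 * n).natAbs` (`Int.natCast_dvd`), `(Nat.dvd_iff_prime_pow_dvd_dvd _ _).2`,
(M0) `prime_pow_dvd_of_zsmul_cusp_eq_zero`. -/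
theorem sub_one_dvd_of_zsmul_cusp_eq_zero (hp : p.Prime) (n : ℤ) (h : n • cusp p = 0) :
    ((p - 1 : ℕ) : ℤ) ∣ 24 * n := by
  rw [Int.natCast_dvd, Nat.dvd_iff_prime_pow_dvd_dvd]
  intro ℓ b hℓ hb
  have h1 := prime_pow_dvd_of_zsmul_cusp_eq_zero hp n h ℓ hℓ b hb
  rwa [Int.natCast_dvd] at h1

/-- PURE ARITHMETIC.  PROOF: `p - 1 ≤ 24` (`Nat.le_of_dvd`), `interval_cases p` and `norm_num`/`decide`/`simp_all` in each case. -/
theorem not_sub_one_dvd (hp : p.Prime) (hp' : p ∉ ({2, 3, 5, 7, 13} : Finset ℕ)) : ¬ (p - 1 ∣ 24) := by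
  have aux : ∀ m : ℕ, m.Prime → m ∉ ({2, 3, 5, 7, 13} : Finset ℕ) → ¬ (m - 1 ∣ 24) := by
    intro m hm hm' h
    have h1 : m - 1 ≤ 24 := Nat.le_of_dvd (by norm_num) h
    have h2 : m ≤ 25 := by omega
    have h3 := hm.two_le
    interval_cases m <;> first
      | (norm_num at hm; done)
      | (norm_num at h; done)
      | (simp at hm')
  exact aux p hp hp'

/-- **(M2)** PROOF: (M1) with `n = 1`: `p - 1 ∣ 24` (`one_smul`, `mul_one`, `Int.natCast_dvd_natCast`/`exact_mod_cast`), `not_sub_one_dvd`. -/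
theorem cusp_ne_zero (hp : p.Prime) (hp' : p ∉ ({2, 3, 5, 7, 13} : Finset ℕ)) : cusp p ≠ 0 := by
  intro h
  have h1 := sub_one_dvd_of_zsmul_cusp_eq_zero hp 1 (by rw [one_smul]; exact h)
  rw [mul_one] at h1
  exact not_sub_one_dvd hp hp' (by exact_mod_cast h1)

/-- **(M3)** a good prime `r` for the descent: `r ∣ p - 1` and `r` divides every annihilator of the cuspidal class.
PROOF: `not_sub_one_dvd`, so by `Nat.dvd_iff_prime_pow_dvd_dvd` there are a prime `r` and `b` with `r^b ∣ p - 1`, `r^b ∤ 24`; `b ≥ 1`, so `r ∣ p - 1`.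
If `n • cusp = 0` and `r ∤ n` then `r^b ∣ 24 n` (M0) gives `r^b ∣ 24` (`IsCoprime.dvd_of_dvd_mul_right`, `r^b` coprime to `n`:
`(Nat.prime_iff_prime_int.1 hr).coprime_iff_not_dvd`/`Int.isCoprime_iff_gcd_eq_one`, `IsCoprime.pow_left`). -/
theorem exists_good_prime (hp : p.Prime) (hp' : p ∉ ({2, 3, 5, 7, 13} : Finset ℕ)) :
    ∃ r : ℕ, r.Prime ∧ r ∣ p - 1 ∧ ∀ n : ℤ, n • cusp p = 0 → (r : ℤ) ∣ n := by
  have h1 := not_sub_one_dvd hp hp'
  rw [Nat.dvd_iff_prime_pow_dvd_dvd] at h1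
  push Not at h1
  obtain ⟨r, b, hr, hb, hb'⟩ := h1
  have hb0 : b ≠ 0 := by
    rintro rfl
    exact hb' (by simp)
  refine ⟨r, hr, (dvd_pow_self r hb0).trans hb, fun n hn => ?_⟩
  by_contra hrn
  have h2 := prime_pow_dvd_of_zsmul_cusp_eq_zero hp n hn r hr b hb
  have hcop : IsCoprime ((r ^ b : ℕ) : ℤ) n := by
    rw [Nat.cast_pow]
    exact IsCoprime.pow_left (((Nat.prime_iff_prime_int.1 hr).coprime_iff_not_dvd).2 hrn)
  have h3 : ((r ^ b : ℕ) : ℤ) ∣ 24 := hcop.dvd_of_dvd_mul_right h2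
  exact hb' (by exact_mod_cast h3)

end Fermat.Agent.S15.Cusp
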