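import Fermat.Agent.S15.M1.U.Div
import Fermat.Agent.S37.Main

/-!
# S15 / CUSP : classes of `(x) - (y)`; `(p - 1) • cusp = 0`
-/

set_option autoImplicit false

noncomputable section

namespace Fermat.Agent.S15.Cusp

open AlgebraicCurve ModularCurve Fermat.Agent.S24 Fermat.Agent.Lib.RR Fermat.Agent.GAL

variable (p : ℕ) [NeZero p]

/-- PROOF: the degree of `single x 1 - single y 1`: `map_sub`, `Divisor.degree_single`, `deg_eq_one` (exactly as in `M1.U.ord_zz`,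
`Fermat/Agent/S15/M1/U/Div.lean`). -/
theorem ptDiv_mem (x y : Place Kbar (FN p)) : ptDiv p x y ∈ Divisor.degZero (K := Kbar) (F := FN p) := by
  rw [Divisor.mem_degZero, ptDiv, map_sub, Divisor.degree_single, Divisor.degree_single,
    RED.deg_eq_one, RED.deg_eq_one, sub_self]

theorem ptCls_eq (x y : Place Kbar (FN p)) : ptCls p x y = Pic0.mk ⟨ptDiv p x y, ptDiv_mem p x y⟩ := by
  rw [ptCls, dif_pos (ptDiv_mem p x y)]

/-- **(V3)** PROOF: `ptCls_eq`; `n • Pic0.mk D = Pic0.mk (n • D)` (`map_zsmul` of the quotient map `QuotientAddGroup.mk' _`, as `S37.Main_mk_nsmul`),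
`S37.Main_mk_eq_zero_iff`, `S37.Main_eq_divOf` / `divOf_apply`; the coercion of `n • D` is `n • ↑D` (`AddSubgroup.coe_zsmul`). -/
theorem zsmul_ptCls_eq_zero_iff (x y : Place Kbar (FN p)) (n : ℤ) :
    n • ptCls p x y = 0 ↔ ∃ w : FN p, w ≠ 0 ∧ n • ptDiv p x y = divOf (K := Kbar) w := by
  have h1 : n • Pic0.mk (⟨ptDiv p x y, ptDiv_mem p x y⟩ :
      Divisor.degZero (K := Kbar) (F := FN p)) =
      Pic0.mk (n • (⟨ptDiv p x y, ptDiv_mem p x y⟩ : Divisor.degZero (K := Kbar) (F := FN p))) :=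
    (map_zsmul (QuotientAddGroup.mk' ((Divisor.principal (K := Kbar) (F := FN p)).addSubgroupOf
      (Divisor.degZero (K := Kbar) (F := FN p)))) n _).symm
  rw [ptCls_eq, h1, S37.Main_mk_eq_zero_iff, AddSubgroup.coe_zsmul]
  constructor
  · rintro ⟨w, hw, h⟩
    exact ⟨w, hw, S37.Main_eq_divOf h⟩
  · rintro ⟨w, hw, h⟩
    refine ⟨w, hw, fun v => ?_⟩
    show (n • ptDiv p x y) v = _
    rw [h, divOf_apply]

theorem zsmul_cusp_eq_zero_iff (n : ℤ) :
    n • cusp p = 0 ↔ ∃ w : FN p, w ≠ 0 ∧ n • ptDiv p (zz p) (oo p) = divOf (K := Kbar) w :=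
  zsmul_ptCls_eq_zero_iff p _ _ n

theorem sub_one_zsmul_cusp (hp : p.Prime) : ((p : ℤ) - 1) • cusp p = 0 :=
  (zsmul_cusp_eq_zero_iff p _).2 ⟨M1.uF p, M1.U.uF_ne_zero p hp, (M1.U.divOf_uF p hp).symm⟩

theorem sub_one_smul_cusp (hp : p.Prime) : (p - 1) • cusp p = 0 := by
  have h := sub_one_zsmul_cusp p hp
  rwa [show ((p : ℤ) - 1) = ((p - 1 : ℕ) : ℤ) by
    rw [Nat.cast_sub hp.one_lt.le, Nat.cast_one], natCast_zsmul] at h

end Fermat.Agent.S15.Cusp
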