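import Fermat.Agent.S37.RDivF4

/-!
# S15 / CUSP : functions with the same divisor; divisor of an integral power
-/

set_option autoImplicit false

noncomputable section

namespace Fermat.Agent.S15.Cusp

open AlgebraicCurve Fermat.Agent.Lib.RR

/-- **(A0)** two functions with the same divisor differ by a constant.  PROOF: `h := f / g ≠ 0` has `divOf h = 0` (`divOf_mul`, `divOf_inv`), so
`h ∈ riemannRochSpace 0` (`mem_L_iff`), `isAlgebraic_of_mem_L_zero`, `.isIntegral`, and an element integral over an algebraically closed field is a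
constant: `minpoly.mem_range_of_degree_eq_one K h (IsAlgClosed.degree_eq_one_of_irreducible K (minpoly.irreducible hint))`
(as in `S15/Red/Cusp.lean`, `polesInt_alpha_isIntegral`). -/
theorem exists_const_of_divOf_eq {K F : Type*} [Field K] [Field F] [Algebra K F] [IsFF K F] [IsAlgClosed K]
    {f g : F} (hf : f ≠ 0) (hg : g ≠ 0) (h : divOf (K := K) f = divOf g) :
    ∃ a : K, a ≠ 0 ∧ f = algebraMap K F a * g := by
  have hq : f * g⁻¹ ≠ 0 := mul_ne_zero hf (inv_ne_zero hg)
  have hd : divOf (K := K) (f * g⁻¹) = 0 := by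
    rw [divOf_mul hf (inv_ne_zero hg), divOf_inv, h, add_neg_cancel]
  have hmem : f * g⁻¹ ∈ riemannRochSpace (0 : Divisor K F) :=
    mem_L_iff.2 (Or.inr (by rw [hd, add_zero]))
  have hint : IsIntegral K (f * g⁻¹) := (isAlgebraic_of_mem_L_zero hmem).isIntegral
  obtain ⟨a, ha⟩ := minpoly.mem_range_of_degree_eq_one K (f * g⁻¹)
    (IsAlgClosed.degree_eq_one_of_irreducible K (minpoly.irreducible hint))
  refine ⟨a, ?_, ?_⟩
  · rintro rfl
    rw [map_zero] at ha
    exact hq ha.symm
  · rw [ha, mul_assoc, inv_mul_cancel₀ hg, mul_one]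

/-- PROOF: cases on `n` (`obtain ⟨m, rfl | rfl⟩ := n.eq_nat_or_neg`), `divOf_pow`, `divOf_inv`, `zpow_natCast`, `zpow_neg`, `natCast_zsmul`, `neg_smul`. -/
theorem divOf_zpow {K F : Type*} [Field K] [Field F] [Algebra K F] [HasPrincipalDivisors K F] (f : F) (n : ℤ) :
    divOf (K := K) (f ^ n) = n • divOf f := by
  obtain ⟨m, rfl | rfl⟩ := n.eq_nat_or_neg
  · rw [zpow_natCast, divOf_pow, natCast_zsmul]
  · rw [zpow_neg, zpow_natCast, divOf_inv, divOf_pow, neg_smul, natCast_zsmul]

end Fermat.Agent.S15.Cusp
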