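import Fermat.Agent.S28.Interface

/-!
# S15 / CUSP : `∏ (1 - qⁿ) = 1 - q + O(q²)`
-/

set_option autoImplicit false

noncomputable section

namespace Fermat.Agent.S15.Cusp

open ModularCurve

theorem coeff_one_etaProd_fin (M : ℕ) :
    PowerSeries.coeff 0 (∏ n ∈ Finset.range (M + 1),
        ((1 : PowerSeries ℤ) - PowerSeries.X ^ (n + 1))) = 1 ∧
      PowerSeries.coeff 1 (∏ n ∈ Finset.range (M + 1),
        ((1 : PowerSeries ℤ) - PowerSeries.X ^ (n + 1))) = -1 := by
  induction M with
  | zero =>
    rw [zero_add, Finset.prod_range_one, zero_add, pow_one, map_sub, map_sub,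
      PowerSeries.coeff_zero_one, PowerSeries.coeff_zero_X, PowerSeries.coeff_one_X,
      PowerSeries.coeff_one]
    simp
  | succ M ih =>
    rw [Finset.prod_range_succ, mul_sub, mul_one, map_sub, map_sub,
      PowerSeries.coeff_mul_X_pow', PowerSeries.coeff_mul_X_pow', if_neg (by omega),
      if_neg (by omega), sub_zero, sub_zero]
    exact ih

open scoped PowerSeries.WithPiTopology in
/-- **(E6)** PURE MATHLIB + Prelude definition `etaProd = ∏' n, (1 - X ^ (n + 1))`.  PROOF: the coefficient maps are continuous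
(`PowerSeries.WithPiTopology.continuous_coeff`) and the product is multipliable
(`PowerSeries.WithPiTopology.multipliable_one_sub_X_pow ℤ`, see `constantCoeff_etaProd` in `Fermat/Prelude/Def_ModularCurve_X0.lean`);
so `coeff 1 etaProd = lim_M coeff 1 (∏_{n < M} (1 - X^(n+1)))` (`Multipliable.hasProd`, `HasProd.tendsto_prod_nat`) and for `M ≥ 1` the
finite product is `≡ 1 - X mod X²` (induction on `M`: `Finset.prod_range_succ`; multiplying by `1 - X^(n+1)`, `n ≥ 1`, does not
change the coefficients `0` and `1`).  Alternative: `Multipliable.tprod_eq_zero_mul`. -/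
theorem coeff_one_etaProd : PowerSeries.coeff 1 etaProd = -1 := by
  have hm := PowerSeries.WithPiTopology.multipliable_one_sub_X_pow ℤ
  have h1 := hm.hasProd.tendsto_prod_nat
  have h2 := ((PowerSeries.WithPiTopology.continuous_coeff ℤ 1).tendsto _).comp h1
  have h4 : Filter.Tendsto (fun M : ℕ => PowerSeries.coeff 1 (∏ n ∈ Finset.range M,
      ((1 : PowerSeries ℤ) - PowerSeries.X ^ (n + 1)))) Filter.atTop (nhds (-1)) := by
    refine tendsto_const_nhds.congr' (Filter.eventually_atTop.2 ⟨1, fun M hM => ?_⟩)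
    obtain ⟨M', rfl⟩ : ∃ M', M = M' + 1 := ⟨M - 1, by omega⟩
    exact (coeff_one_etaProd_fin M').2.symm
  exact tendsto_nhds_unique h2 h4

end Fermat.Agent.S15.Cusp
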