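import Fermat.Agent.S15.Red.Top
import Fermat.Agent.GAL.FF.Corollaries

/-!
# S15 / Cusp: the two cusps are Galois fixed; formal properties of `ptDiv`, `ptCls`; `cusp p ∈ J₀(p)(ℚ)`.
-/

set_option autoImplicit false
set_option linter.unusedSectionVars false

namespace Fermat.Agent.S15.CuspFix

open AlgebraicCurve ModularCurve Fermat.Agent.Lib.RR Fermat.Agent.S24

variable (p : ℕ) [NeZero p]

theorem gal_smul_oo (σ : GQ) : gal p σ • oo p = oo p := S17.Unr.smul_oo p σ

/-- the cusp `0` is Galois fixed: it is the only pole of `j` different from `∞`. -/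
theorem gal_smul_zz (hp : p.Prime) (σ : GQ) : gal p σ • zz p = zz p := by
  have C := Red.cuspFacts p hp
  have hp0 : (0 : ℤ) < p := by exact_mod_cast hp.pos
  have h1 : (gal p σ • zz p).ord (jF p) = -(p : ℤ) := by
    have h := SemilinearAut.ord_smul (gal p σ) (zz p) (jF p)
    rw [Red.gal_smul_jF] at h
    rw [h, C.zz_j]
  rcases C.pole_j (gal p σ • zz p) (by omega) with h | h
  · exfalso
    apply C.ne
    apply MulAction.injective (gal p σ)
    show gal p σ • zz p = gal p σ • oo p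
    rw [h, gal_smul_oo]
  · exact h

theorem ptDiv_mem_degZero (x y : Place Kbar (FN p)) :
    ptDiv p x y ∈ Divisor.degZero (K := Kbar) (F := FN p) := by
  have : Lib.RR.IsFF Kbar (FN p) := GAL.Desc.isFF_FF_Kbar p
  rw [Divisor.mem_degZero]
  unfold ptDiv
  rw [map_sub, degree_pt, degree_pt, GAL.FF.Cor.deg_eq_one_of_isAlgClosed,
    GAL.FF.Cor.deg_eq_one_of_isAlgClosed, sub_self]

theorem ptCls_eq (x y : Place Kbar (FN p)) :
    ptCls p x y = Pic0.mk ⟨ptDiv p x y, ptDiv_mem_degZero p x y⟩ := by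
  unfold ptCls
  rw [dif_pos (ptDiv_mem_degZero p x y)]

theorem smul_ptDiv (g : SemilinearAut Kbar (FN p)) (x y : Place Kbar (FN p)) :
    g • ptDiv p x y = ptDiv p (g • x) (g • y) := by
  unfold ptDiv
  rw [smul_sub, SemilinearAut.smul_single, SemilinearAut.smul_single]

theorem smul_ptCls (σ : GQ) (x y : Place Kbar (FN p)) :
    σ • ptCls p x y = ptCls p (gal p σ • x) (gal p σ • y) := by
  rw [ptCls_eq, ptCls_eq, galois_smul_pic0_def, SemilinearAut.pic0_smul_mk]
  congr 1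
  apply Subtype.ext
  exact smul_ptDiv p _ x y

theorem ptCls_mem_JQ {x y : Place Kbar (FN p)} (hx : ∀ σ : GQ, gal p σ • x = x)
    (hy : ∀ σ : GQ, gal p σ • y = y) : ptCls p x y ∈ JQ p := by
  intro σ
  rw [smul_ptCls, hx, hy]

theorem cusp_mem_JQ (hp : p.Prime) : cusp p ∈ JQ p :=
  ptCls_mem_JQ p (gal_smul_zz p hp) (gal_smul_oo p)

theorem ptCls_zz_mem_JQ (hp : p.Prime) {x : Place Kbar (FN p)} (hx : ∀ σ : GQ, gal p σ • x = x) :
    ptCls p x (zz p) ∈ JQ p :=
  ptCls_mem_JQ p hx (gal_smul_zz p hp)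

theorem ptCls_oo_mem_JQ {x : Place Kbar (FN p)} (hx : ∀ σ : GQ, gal p σ • x = x) :
    ptCls p x (oo p) ∈ JQ p :=
  ptCls_mem_JQ p hx (gal_smul_oo p)

theorem ptCls_add_ptCls (x y z : Place Kbar (FN p)) :
    ptCls p x y + ptCls p y z = ptCls p x z := by
  rw [ptCls_eq, ptCls_eq, ptCls_eq, ← Pic0.mk_add]
  congr 1
  apply Subtype.ext
  show ptDiv p x y + ptDiv p y z = ptDiv p x z
  unfold ptDiv
  abel

theorem ptCls_self (x : Place Kbar (FN p)) : ptCls p x x = 0 := by
  have h := ptCls_add_ptCls p x x x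
  exact add_eq_left.1 h

theorem ptCls_swap (x y : Place Kbar (FN p)) : ptCls p y x = -ptCls p x y := by
  have h := ptCls_add_ptCls p x y x
  rw [ptCls_self] at h
  exact eq_neg_of_add_eq_zero_right h

/-- `(x) - (0) + c = (x) - (∞)`. -/
theorem ptCls_zz_add_cusp (x : Place Kbar (FN p)) :
    ptCls p x (zz p) + cusp p = ptCls p x (oo p) :=
  ptCls_add_ptCls p x (zz p) (oo p)

end Fermat.Agent.S15.CuspFix
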