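import Fermat.Agent.GAL.Hecke.SeriesFrob

/-!
# S15 / CUSP : `ℓ^a`-th powers of Laurent series in characteristic `ℓ`
-/

set_option autoImplicit false

noncomputable section

namespace Fermat.Agent.S15.Cusp

open ModularCurve Fermat.Agent.GAL.Hecke

variable {k : Type*} [Field k] (ℓ : ℕ) [NeZero ℓ] [Fact ℓ.Prime] [CharP k ℓ]

/-- **(F1)** PROOF: induction on `a`.  `x ^ ℓ ^ (a+1) = (x ^ ℓ ^ a) ^ ℓ = qExpand k ℓ (coeffMap (frobenius k ℓ) (x ^ ℓ ^ a))`
(`pow_succ`, `pow_mul`, `pow_char_eq_qExpand k ℓ`).  If `ℓ ∤ n` the coefficient is `0` (`qExpand_coeff_of_not_dvd`); if `n = ℓ n'` it is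
`frobenius (coeff n' (x ^ ℓ ^ a))` (`qExpand_coeff_mul`, `coeffMap_coeff`), nonzero only if `ℓ ^ a ∣ n'`. -/
theorem dvd_of_coeff_pow_ne_zero (x : LaurentSeries k) (a : ℕ) (n : ℤ)
    (h : (x ^ (ℓ ^ a)).coeff n ≠ 0) : ((ℓ ^ a : ℕ) : ℤ) ∣ n := by
  induction a generalizing n with
  | zero => simp
  | succ a ih =>
    rw [pow_succ, pow_mul, pow_char_eq_qExpand k ℓ] at h
    by_cases hd : (ℓ : ℤ) ∣ n
    · obtain ⟨n', rfl⟩ := hd
      rw [qExpand_coeff_mul, coeffMap_coeff] at h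
      have h1 : (x ^ (ℓ ^ a)).coeff n' ≠ 0 := by
        intro h0
        rw [h0, map_zero] at h
        exact h rfl
      obtain ⟨m, rfl⟩ := ih n' h1
      refine ⟨m, ?_⟩
      push_cast
      ring
    · exact absurd (qExpand_coeff_of_not_dvd _ _ hd) h

/-- **(F2)** PROOF: induction on `a`, same tools (`frobenius_def`, `pow_mul`, `Nat.cast_pow`, `pow_succ`, `mul_assoc`). -/
theorem coeff_pow_char_pow (x : LaurentSeries k) (a : ℕ) (n : ℤ) :
    (x ^ (ℓ ^ a)).coeff (((ℓ ^ a : ℕ) : ℤ) * n) = x.coeff n ^ (ℓ ^ a) := by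
  induction a generalizing n with
  | zero => simp
  | succ a ih =>
    have e : (((ℓ ^ (a + 1) : ℕ) : ℤ) * n) = (ℓ : ℤ) * (((ℓ ^ a : ℕ) : ℤ) * n) := by
      push_cast
      ring
    rw [e, pow_succ, pow_mul, pow_char_eq_qExpand k ℓ, qExpand_coeff_mul, coeffMap_coeff, ih,
      frobenius_def, ← pow_mul]

end Fermat.Agent.S15.Cusp
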