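import Fermat.Agent.S15.Cusp.Uk
import Fermat.Agent.S36R.Unit.Gauss

/-!
# S15 / CUSP : the integral model of the `q`-expansion of the modular unit
-/

set_option autoImplicit false

noncomputable section

namespace Fermat.Agent.S15.Cusp

open ModularCurve Fermat.Agent.S28 Fermat.Agent.S24 Fermat.Agent.S36R.Unit Fermat.Agent.GAL Fermat.Agent.GAL.Hecke

variable (p : ℕ) [NeZero p]

/-- **(U6)** integral model.  PROOF: `z := uk`-formula over `A`: `DlL ↥A * qExpand ↥A p (DlLinv ↥A)`; `incl A`, `red A` are `coeffMap` of ring homs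
(`Hecke.incl`, `Hecke.red`), `map_mul`, `coeffMap_qExpand`, `coeffMap_DlL`, `coeffMap_DlLinv` (or `cpar_coeffMap_DlL`, `cpar_coeffMap_DlLinv`;
as in `S36R/Unit/Gauss.lean` `GR_Dl`, and `M1.U.U_wF` in `S15/M1/U/Div.lean`). -/
theorem exists_model (A : ValuationSubring Kbar) :
    ∃ z : LaurentSeries ↥A, uk Kbar p = incl A z ∧ red A z = uk (IsLocalRing.ResidueField ↥A) p := by
  refine ⟨DlL ↥A * qExpand ↥A p (DlLinv ↥A), ?_, ?_⟩
  · rw [uk, incl, map_mul, coeffMap_qExpand, coeffMap_DlL, coeffMap_DlLinv]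
  · rw [uk, red, map_mul, coeffMap_qExpand, coeffMap_DlL, coeffMap_DlLinv]

end Fermat.Agent.S15.Cusp
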