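import Fermat.Agent.S28.Interface
import Fermat.Agent.GAL.Hecke.SeriesFrob

/-!
# S15 / CUSP : Laurent series of the form `1 + c q + O(q²)`
-/

set_option autoImplicit false

noncomputable section

namespace Fermat.Agent.S15.Cusp

open ModularCurve Fermat.Agent.S28

variable {k : Type*} [Field k]

/-- `x = 1 + c q + O(q²)`. -/
def IsOneAdd (x : LaurentSeries k) (c : k) : Prop :=
  ∃ f : PowerSeries k, x = HahnSeries.ofPowerSeries ℤ k f ∧ PowerSeries.constantCoeff f = 1 ∧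
    PowerSeries.coeff 1 f = c

/-- **(E1)** PROOF: `HahnSeries.ofPowerSeries_apply_coeff` with `((1 : ℕ) : ℤ) = 1`. -/
theorem IsOneAdd.coeff_one {x : LaurentSeries k} {c : k} (h : IsOneAdd x c) : x.coeff 1 = c := by
  obtain ⟨f, rfl, -, hc⟩ := h
  rw [show (1 : ℤ) = ((1 : ℕ) : ℤ) from rfl, HahnSeries.ofPowerSeries_apply_coeff, hc]

theorem IsOneAdd.ne_zero {x : LaurentSeries k} {c : k} (h : IsOneAdd x c) : x ≠ 0 := by
  obtain ⟨f, rfl, h0, -⟩ := h
  intro hx
  have h1 := congrArg (fun y : LaurentSeries k => y.coeff 0) hx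
  simp only [HahnSeries.coeff_zero] at h1
  rw [show (0 : ℤ) = ((0 : ℕ) : ℤ) from rfl, HahnSeries.ofPowerSeries_apply_coeff,
    PowerSeries.coeff_zero_eq_constantCoeff_apply, h0] at h1
  exact one_ne_zero h1

theorem IsOneAdd.one : IsOneAdd (1 : LaurentSeries k) 0 := by
  refine ⟨1, (map_one _).symm, map_one _, ?_⟩
  rw [PowerSeries.coeff_one, if_neg one_ne_zero]

/-- **(E2)** PROOF: `f * g`, `map_mul`; `PowerSeries.coeff_mul`, `Finset.Nat.antidiagonal_succ` (antidiagonal of `1` is `{(0,1),(1,0)}`),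
`PowerSeries.coeff_zero_eq_constantCoeff`. -/
theorem IsOneAdd.mul {x y : LaurentSeries k} {c d : k} (hx : IsOneAdd x c) (hy : IsOneAdd y d) :
    IsOneAdd (x * y) (c + d) := by
  obtain ⟨f, rfl, hf0, hf1⟩ := hx
  obtain ⟨g, rfl, hg0, hg1⟩ := hy
  refine ⟨f * g, (map_mul _ _ _).symm, by rw [map_mul, hf0, hg0, mul_one], ?_⟩
  rw [PowerSeries.coeff_mul, Finset.Nat.sum_antidiagonal_eq_sum_range_succ_mk,
    Finset.sum_range_succ, Finset.sum_range_one]
  simp only [Nat.sub_zero, Nat.sub_self, PowerSeries.coeff_zero_eq_constantCoeff_apply]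
  rw [hf0, hg0, hf1, hg1]
  ring

/-- **(E3)** PROOF: `f⁻¹` (`PowerSeries` over a field; `PowerSeries.mul_inv_cancel f (constantCoeff f ≠ 0)`), so
`ofPowerSeries f * ofPowerSeries f⁻¹ = 1` and `x⁻¹ = ofPowerSeries f⁻¹` (`eq_inv_of_mul_eq_one_right`..); the coefficients of `f⁻¹` from
`f * f⁻¹ = 1` as in (E2) (constant coefficient `1`, then `coeff 1 f⁻¹ + c = 0`). -/
theorem IsOneAdd.inv {x : LaurentSeries k} {c : k} (hx : IsOneAdd x c) : IsOneAdd x⁻¹ (-c) := by
  obtain ⟨f, rfl, hf0, hf1⟩ := hx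
  have hne : PowerSeries.constantCoeff f ≠ 0 := by rw [hf0]; exact one_ne_zero
  have hmul : f * f⁻¹ = 1 := PowerSeries.mul_inv_cancel f hne
  have hi0 : PowerSeries.constantCoeff f⁻¹ = 1 := by
    have h1 := congrArg PowerSeries.constantCoeff hmul
    rwa [map_mul, hf0, one_mul, map_one] at h1
  have hprod : IsOneAdd (HahnSeries.ofPowerSeries ℤ k f * HahnSeries.ofPowerSeries ℤ k f⁻¹)
      (c + PowerSeries.coeff 1 f⁻¹) :=
    IsOneAdd.mul ⟨f, rfl, hf0, hf1⟩ ⟨f⁻¹, rfl, hi0, rfl⟩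
  have hone : HahnSeries.ofPowerSeries ℤ k f * HahnSeries.ofPowerSeries ℤ k f⁻¹ = 1 := by
    rw [← map_mul, hmul, map_one]
  refine ⟨f⁻¹, (eq_inv_of_mul_eq_one_right hone).symm, hi0, ?_⟩
  have h2 := hprod.coeff_one
  rw [hone, (IsOneAdd.one (k := k)).coeff_one] at h2
  exact eq_neg_of_add_eq_zero_right h2.symm

/-- **(E4)** PROOF: natural powers by induction ((E2), `Nat.cast_succ`, `add_mul`), negative ones by (E3) (`Int.induction_on` or
`obtain ⟨m, rfl | rfl⟩ := j.eq_nat_or_neg`, `zpow_natCast`, `zpow_neg`). -/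
theorem IsOneAdd.zpow {x : LaurentSeries k} {c : k} (hx : IsOneAdd x c) (j : ℤ) :
    IsOneAdd (x ^ j) ((j : k) * c) := by
  have hnat : ∀ m : ℕ, IsOneAdd (x ^ m) ((m : k) * c) := by
    intro m
    induction m with
    | zero =>
      rw [pow_zero, Nat.cast_zero, zero_mul]
      exact IsOneAdd.one
    | succ m ih =>
      rw [pow_succ, Nat.cast_succ, add_mul, one_mul]
      exact ih.mul hx
  obtain ⟨m, rfl | rfl⟩ := j.eq_nat_or_neg
  · rw [zpow_natCast, Int.cast_natCast]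
    exact hnat m
  · rw [zpow_neg, zpow_natCast, Int.cast_neg, Int.cast_natCast, neg_mul]
    exact (hnat m).inv

/-- **(E5)** PROOF: `PowerSeries.expand p (NeZero.ne p) f` (see `GAL/Hecke/SeriesFrob.lean`, `seriesFrob_qExpand_coe` with `φ = RingHom.id`,
or compare coefficients directly with `qExpand_coeff_mul`, `qExpand_coeff_of_not_dvd`); `coeff 1` vanishes because `p ∤ 1`
(`PowerSeries.coeff_expand_of_not_dvd`), constant coefficient `PowerSeries.coeff_expand_mul` with `0 = p * 0`. -/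
theorem IsOneAdd.qExpand {x : LaurentSeries k} {c : k} (hx : IsOneAdd x c) (p : ℕ) [NeZero p] (hp : 2 ≤ p) :
    IsOneAdd (ModularCurve.qExpand k p x) 0 := by
  obtain ⟨f, rfl, hf0, -⟩ := hx
  refine ⟨PowerSeries.expand p (NeZero.ne p) f, ?_, ?_, ?_⟩
  · have h := Fermat.Agent.GAL.Hecke.seriesFrob_qExpand_coe k p (RingHom.id k) f
    rw [coeffMap_id, PowerSeries.map_id] at h
    exact h
  · rw [← PowerSeries.coeff_zero_eq_constantCoeff_apply, show (0 : ℕ) = p * 0 from (mul_zero p).symm,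
      PowerSeries.coeff_expand_mul, PowerSeries.coeff_zero_eq_constantCoeff_apply, hf0]
  · rw [PowerSeries.coeff_expand_of_not_dvd]
    intro hdvd
    have := Nat.le_of_dvd one_pos hdvd
    omega

end Fermat.Agent.S15.Cusp
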