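import Fermat.Agent.S37.RDivF4

/-!
# S15 / CUSP : the reduction of the divisor of a function with an integral `q`-expansion
-/

set_option autoImplicit false

noncomputable section

namespace Fermat.Agent.S15.Cusp

open AlgebraicCurve ModularCurve Fermat.Agent.Lib.RR Fermat.Agent.GAL Fermat.Agent.GAL.RED
  Fermat.Agent.GAL.Hecke Fermat.Agent.GAL.Igusa Fermat.Agent.S24 Fermat.Agent.S37

variable {A : ValuationSubring Kbar} {N c : ℕ} [NeZero N] [NeZero c]

variable [IsAlgClosed (IsLocalRing.ResidueField ↥A)]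
  [Lib.RR.IsFF (IsLocalRing.ResidueField ↥A) (E (IsLocalRing.ResidueField ↥A) (N * c))]
variable (hM : ((N * c : ℕ) : (IsLocalRing.ResidueField ↥A)) ≠ 0)
  (hg : genusFF Kbar (FN (N * c)) =
    genusFF (IsLocalRing.ResidueField ↥A) (E (IsLocalRing.ResidueField ↥A) (N * c)))
  {r : Place Kbar (FN (N * c)) →
    Place (IsLocalRing.ResidueField ↥A) (E (IsLocalRing.ResidueField ↥A) (N * c))}
  (hr : IsRedMap (redFN A (N * c) hM) r)

include hg hr

/-- **(A1)** PROOF: extract from the proof of `S37.Rdiv_divOf_mem` (`Fermat/Agent/S37/RDivF1.lean`), simpler since no scaling is needed: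
`u' := (redFN A (N*c) hM).red (heckeAlphaBar Kbar N c u)`; `coe_heckeAlphaBar`, `redFN_incl hM _ z _` give `u' = red A z` as series, so `u' ≠ 0`;
`Rdiv_apply`, `pull_divOf`, `hr.map_divOf _ hne`. -/
theorem Rdiv_divOf_eq (u : FN N) (z : LaurentSeries ↥A) (hz : (u : LaurentSeries Kbar) = incl A z)
    (hz0 : red A z ≠ 0) :
    ∃ u' : E (IsLocalRing.ResidueField ↥A) (N * c), u' ≠ 0 ∧
      (u' : LaurentSeries (IsLocalRing.ResidueField ↥A)) = red A z ∧ Rdiv r (divOf u) = divOf u' := by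
  have hz' : ((heckeAlphaBar Kbar N c u : FN (N * c)) : LaurentSeries Kbar) = incl A z := by
    rw [coe_heckeAlphaBar]; exact hz
  obtain ⟨-, hred⟩ := redFN_incl hM _ z hz'
  have hne : (redFN A (N * c) hM).red (heckeAlphaBar Kbar N c u) ≠ 0 := by
    intro h
    rw [h] at hred
    exact hz0 hred.symm
  refine ⟨(redFN A (N * c) hM).red (heckeAlphaBar Kbar N c u), hne, hred, ?_⟩
  rw [Rdiv_apply, pull_divOf, ← hr.map_divOf _ hne]

end Fermat.Agent.S15.Cusp
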