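import Fermat.Agent.S15.Cusp.OneAdd
import Fermat.Agent.S15.Cusp.Eta
import Fermat.Agent.MR.Eis.Eta

/-!
# S15 / CUSP : the modular unit is `q^{1-p} B²⁴`, `B = 1 - q + O(q²)`
-/

set_option autoImplicit false

noncomputable section

namespace Fermat.Agent.S15.Cusp

open ModularCurve Fermat.Agent.S28

variable (k : Type*) [Field k]

/-- `∏ (1 - qⁿ)` as a Laurent series over `k`. -/
def etaL : LaurentSeries k := HahnSeries.ofPowerSeries ℤ k (etaProd.map (Int.castRingHom k))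

theorem isOneAdd_etaL : IsOneAdd (etaL k) (-1) :=
  ⟨_, rfl, by
    rw [← PowerSeries.coeff_zero_eq_constantCoeff_apply, PowerSeries.coeff_map,
      PowerSeries.coeff_zero_eq_constantCoeff_apply, constantCoeff_etaProd, map_one], by
    rw [PowerSeries.coeff_map, coeff_one_etaProd]; simp⟩

/-- `B = ∏ (1 - qⁿ)/(1 - q^{pn})`. -/
def Bk (p : ℕ) [NeZero p] : LaurentSeries k := etaL k * (qExpand k p (etaL k))⁻¹

theorem isOneAdd_Bk (p : ℕ) [NeZero p] (hp : 2 ≤ p) : IsOneAdd (Bk k p) (-1) := by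
  have h := (isOneAdd_etaL k).mul (((isOneAdd_etaL k).qExpand p hp).inv)
  rwa [neg_zero, add_zero] at h

/-- the modular unit `Δ(q)/Δ(q^p)` over `k`. -/
def uk (p : ℕ) [NeZero p] : LaurentSeries k := DlL k * qExpand k p (DlLinv k)

/-- **(E7)** PROOF: `DlL`, `Dl = X * dedekindEtaUnit`, `dedekindEtaUnit = etaProd ^ 24`: `PowerSeries.map_mul`/`map_pow`/`PowerSeries.map_X`,
`HahnSeries.ofPowerSeries_X` (`ofPowerSeries X = single 1 1`), `map_mul`, `map_pow`. -/
theorem DlL_eq : DlL k = HahnSeries.single (1 : ℤ) 1 * etaL k ^ 24 := by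
  rw [DlL, Dl, dedekindEtaUnit, etaL, map_mul, map_pow, PowerSeries.map_X, map_mul, map_pow,
    HahnSeries.ofPowerSeries_X]

/-- **(E8)** PROOF: `DlL k * DlLinv k = 1` (`MR.Eis.qExpand_DlL_mul_inv` with `d = 1` + `qExpand_one_apply`, or directly from
`dedekindEtaUnit_mul_inv`), so `qExpand k p (DlLinv k) = (qExpand k p (DlL k))⁻¹` (`MR.Eis.qExpand_DlL_mul_inv k p`,
`eq_inv_of_mul_eq_one_right`); (E7), `map_mul`, `map_pow`, `qExpand_single` (`qExpand (single 1 1) = single (p * 1) 1`),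
`HahnSeries.single` arithmetic: `single 1 1 * (single p 1)⁻¹ = single (1 - p) 1` (`HahnSeries.single_mul_single`, `HahnSeries.inv_single`),
`mul_pow`, `inv_pow`; `field_simp`-free: `mul_inv`, `mul_mul_mul_comm`. -/
theorem uk_eq (p : ℕ) [NeZero p] : uk k p = HahnSeries.single (1 - (p : ℤ)) 1 * Bk k p ^ 24 := by
  have h1 : qExpand k p (DlLinv k) = (qExpand k p (DlL k))⁻¹ :=
    eq_inv_of_mul_eq_one_right (by rw [← map_mul, DlL_mul_DlLinv, map_one])
  have h2 : (HahnSeries.single (1 - (p : ℤ)) (1 : k) : LaurentSeries k)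
      = HahnSeries.single (1 : ℤ) 1 * (HahnSeries.single ((p : ℤ) * 1) (1 : k))⁻¹ := by
    rw [HahnSeries.inv_single, HahnSeries.single_mul_single, inv_one, mul_one, mul_one,
      sub_eq_add_neg]
  rw [uk, h1, DlL_eq, map_mul, map_pow, qExpand_single, Bk, h2, mul_pow, inv_pow, mul_inv]
  ring

theorem uk_ne_zero (p : ℕ) [NeZero p] (hp : 2 ≤ p) : uk k p ≠ 0 := by
  rw [uk_eq]
  exact mul_ne_zero (HahnSeries.single_ne_zero one_ne_zero) (pow_ne_zero _ (isOneAdd_Bk k p hp).ne_zero)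

end Fermat.Agent.S15.Cusp
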