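import Fermat.Agent.S15.Cusp.Frob
import Fermat.Agent.S15.Cusp.Uk

/-!
# S15 / CUSP : the key lemma on series in characteristic `ℓ`
-/

set_option autoImplicit false

noncomputable section

namespace Fermat.Agent.S15.Cusp

open ModularCurve Fermat.Agent.S28

variable {k : Type*} [Field k] (ℓ : ℕ) [NeZero ℓ] [Fact ℓ.Prime] [CharP k ℓ]

/-- **(SER)**  If `ū^n = κ W^{p-1}` in `k((q))`, `char k = ℓ`, `n ≠ 0`, then `v_ℓ(p-1) ≤ v_ℓ(24 n)`.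
PROOF.  `p - 1 = ℓ^b s`.  By `uk_eq`: `ū^n = single (n (1-p)) 1 * B^(24 n)` (`mul_zpow`, `HahnSeries.single_zpow`?  [if missing: prove
`(single a 1)^(j : ℤ) = single (j * a) 1` by cases on `j` from `HahnSeries.single_pow`, `HahnSeries.inv_single`], `← zpow_natCast`, `← zpow_mul`).
`single (n (1-p)) 1 = (single (- n s) 1) ^ (ℓ^b)`, `W^(p-1) = (W^s)^(ℓ^b)`.  Hence `B^(24 n) = C κ * Y^(ℓ^b)`,
`Y := W^s * (single (- n s) 1)⁻¹`.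
Write `24 n = ℓ^γ t` with `ℓ ∤ t` (`24 n ≠ 0`; `Int.exists_eq_pow_mul_and_not_dvd` / `multiplicity`, `(Nat.prime_iff_prime_int.1 _)`..).
If `b ≤ γ` we are done (`pow_dvd_pow`, `Dvd.dvd.mul_right`).  Otherwise `γ < b`.  `B^(24 n) = (B^t)^(ℓ^γ)` (`zpow_mul`, `zpow_natCast`, commute the factors),
so by `coeff_pow_char_pow ℓ (B^t) γ 1` its coefficient at `ℓ^γ * 1` is `((B^t).coeff 1)^(ℓ^γ) = (t * (-1))^(ℓ^γ)`
(`(isOneAdd_Bk k p hp).zpow t`, `IsOneAdd.coeff_one`), which is `≠ 0` because `(t : k) ≠ 0` (`CharP.intCast_eq_zero_iff k ℓ`).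
On the other hand `(C κ * Y^(ℓ^b)).coeff m = κ * (Y^(ℓ^b)).coeff m` (`HahnSeries.C_mul_eq_smul`, `HahnSeries.coeff_smul`), so
`dvd_of_coeff_pow_ne_zero ℓ Y b` gives `ℓ^b ∣ ℓ^γ`, i.e. `b ≤ γ` (`Nat.pow_dvd_pow_iff_le_right`): contradiction. -/
theorem dvd_of_uk_zpow_eq (p : ℕ) [NeZero p] (hp : 2 ≤ p) (n : ℤ) (hn : n ≠ 0) (κ : k) (W : LaurentSeries k)
    (h : uk k p ^ n = HahnSeries.C κ * W ^ (p - 1)) (b : ℕ) (hb : ℓ ^ b ∣ p - 1) :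
    ((ℓ ^ b : ℕ) : ℤ) ∣ 24 * n := by
  obtain ⟨s, hs⟩ := hb
  have hℓ : ℓ.Prime := Fact.out
  have hB : IsOneAdd (Bk k p) (-1) := isOneAdd_Bk k p hp
  have hB0 : Bk k p ≠ 0 := hB.ne_zero
  have hT : HahnSeries.single (1 - (p : ℤ)) (1 : k) =
      (HahnSeries.single (-(s : ℤ)) (1 : k)) ^ (ℓ ^ b) := by
    have h1 : (p : ℤ) = ((ℓ ^ b * s : ℕ) : ℤ) + 1 := by
      rw [← hs]
      omega
    have h2 : 1 - (p : ℤ) = (ℓ ^ b) • (-(s : ℤ)) := by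
      rw [h1, nsmul_eq_mul]
      push_cast
      ring
    rw [HahnSeries.single_pow, one_pow, h2]
  have hZ0 : HahnSeries.single (-(s : ℤ)) (1 : k) ≠ 0 := HahnSeries.single_ne_zero one_ne_zero
  have h1 : uk k p ^ n =
      ((HahnSeries.single (-(s : ℤ)) (1 : k)) ^ n) ^ (ℓ ^ b) * Bk k p ^ (24 * n) := by
    rw [uk_eq, hT, mul_zpow, ← zpow_natCast (HahnSeries.single (-(s : ℤ)) (1 : k)),
      ← zpow_natCast (HahnSeries.single (-(s : ℤ)) (1 : k) ^ n), ← zpow_mul, ← zpow_mul,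
      mul_comm n, ← zpow_natCast (Bk k p) 24, ← zpow_mul]
    norm_num
  have h2 : Bk k p ^ (24 * n) = HahnSeries.C κ *
      (W ^ s * ((HahnSeries.single (-(s : ℤ)) (1 : k)) ^ n)⁻¹) ^ (ℓ ^ b) := by
    have hZn : ((HahnSeries.single (-(s : ℤ)) (1 : k)) ^ n) ^ (ℓ ^ b) ≠ 0 :=
      pow_ne_zero _ (zpow_ne_zero _ hZ0)
    rw [mul_pow, inv_pow, ← pow_mul, mul_comm s, ← hs, ← mul_assoc, ← h, h1]
    field_simp
  have h24 : (24 * n : ℤ) ≠ 0 := mul_ne_zero (by norm_num) hn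
  obtain ⟨t, ht, htd⟩ := (Int.finiteMultiplicity_iff.2
    ⟨by rw [Int.natAbs_natCast]; exact hℓ.ne_one, h24⟩ :
      FiniteMultiplicity (ℓ : ℤ) (24 * n)).exists_eq_pow_mul_and_not_dvd
  obtain ⟨γ, hγ⟩ : ∃ γ, γ = multiplicity (ℓ : ℤ) (24 * n) := ⟨_, rfl⟩
  rw [← hγ] at ht
  by_cases hbγ : b ≤ γ
  · rw [ht]
    push_cast
    exact Dvd.dvd.mul_right (pow_dvd_pow _ hbγ) _
  · exfalso
    apply hbγ
    have h3 : Bk k p ^ (24 * n) = (Bk k p ^ t) ^ (ℓ ^ γ) := by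
      rw [ht, ← zpow_natCast (Bk k p ^ t), ← zpow_mul, mul_comm t]
      push_cast
      rfl
    have h4 := coeff_pow_char_pow ℓ (Bk k p ^ t) γ 1
    rw [(hB.zpow t).coeff_one, ← h3, h2, HahnSeries.C_mul_eq_smul, HahnSeries.coeff_smul] at h4
    have ht0 : (t : k) ≠ 0 := by
      rw [Ne, CharP.intCast_eq_zero_iff k ℓ]
      exact htd
    have h5 : ((W ^ s * ((HahnSeries.single (-(s : ℤ)) (1 : k)) ^ n)⁻¹) ^ (ℓ ^ b)).coeff
        (((ℓ ^ γ : ℕ) : ℤ) * 1) ≠ 0 := by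
      intro h0
      rw [h0, smul_zero] at h4
      exact pow_ne_zero _ (mul_ne_zero ht0 (neg_ne_zero.2 one_ne_zero)) h4.symm
    have h6 := dvd_of_coeff_pow_ne_zero ℓ _ b _ h5
    rw [mul_one, Int.natCast_dvd_natCast] at h6
    exact (Nat.pow_dvd_pow_iff_le_right hℓ.one_lt).1 h6

end Fermat.Agent.S15.Cusp
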