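import Fermat.Agent.S15.Cusp.Cls
import Fermat.Agent.S15.Cusp.Ser
import Fermat.Agent.S15.Cusp.Model
import Fermat.Agent.S15.Cusp.Const
import Fermat.Agent.S15.Cusp.RdivEq

/-!
# S15 / CUSP : (ORD') a multiple of the cuspidal divisor which becomes principal in characteristic `ℓ`
-/

set_option autoImplicit false

noncomputable section

namespace Fermat.Agent.S15.Cusp

open AlgebraicCurve ModularCurve Fermat.Agent.Lib.RR Fermat.Agent.GAL Fermat.Agent.GAL.RED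
  Fermat.Agent.GAL.Hecke Fermat.Agent.GAL.Igusa Fermat.Agent.S24 Fermat.Agent.S37

variable {A : ValuationSubring Kbar} {N c : ℕ} [NeZero N] [NeZero c]

variable [IsAlgClosed (IsLocalRing.ResidueField ↥A)]
  [Lib.RR.IsFF (IsLocalRing.ResidueField ↥A) (E (IsLocalRing.ResidueField ↥A) (N * c))]
variable (hM : ((N * c : ℕ) : (IsLocalRing.ResidueField ↥A)) ≠ 0)
  (hg : genusFF Kbar (FN (N * c)) =
    genusFF (IsLocalRing.ResidueField ↥A) (E (IsLocalRing.ResidueField ↥A) (N * c)))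
  {r : Place Kbar (FN (N * c)) →
    Place (IsLocalRing.ResidueField ↥A) (E (IsLocalRing.ResidueField ↥A) (N * c))}
  (hr : IsRedMap (redFN A (N * c) hM) r)

include hg hr

/-- **(A2)** PROOF: `u'` from (A1) `Rdiv_divOf_eq hM hg hr u z hz hz0`.
`divOf (u' ^ n) = n • divOf u' = n • Rdiv r (s • D) = s • (n • Rdiv r D) = s • divOf v = divOf (v ^ s)`
(`divOf_zpow`, `map_nsmul`, `smul_comm`, `divOf_pow`); (A0) `exists_const_of_divOf_eq`: `u' ^ n = algebraMap κ * v ^ s`; take coercions to Laurent series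
(`IntermediateField.coe_mul`, `coe_pow`, `IntermediateField.coe_zpow`/`map_zpow₀ (IntermediateField.val _)`, `IntermediateField.coe_algebraMap_apply`,
`Gauss.algebraMap_eq_C` as in `S37/RedFN.lean`). -/
theorem exists_zpow_eq (u : FN N) (z : LaurentSeries ↥A) (hz : (u : LaurentSeries Kbar) = incl A z)
    (hz0 : red A z ≠ 0) (D : Divisor Kbar (FN N)) (s : ℕ) (hdiv : divOf u = s • D) (n : ℤ)
    (v : E (IsLocalRing.ResidueField ↥A) (N * c)) (hv : v ≠ 0) (hnv : n • Rdiv r D = divOf v) :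
    ∃ κ : IsLocalRing.ResidueField ↥A,
      red A z ^ n = HahnSeries.C κ * (v : LaurentSeries (IsLocalRing.ResidueField ↥A)) ^ s := by
  obtain ⟨u', hu'0, hu'z, hu'div⟩ := Rdiv_divOf_eq hM hg hr u z hz hz0
  have hdiveq : divOf (K := IsLocalRing.ResidueField ↥A) (u' ^ n) = divOf (v ^ s) := by
    rw [divOf_zpow, ← hu'div, hdiv, map_nsmul, divOf_pow, ← hnv, smul_comm]
  obtain ⟨κ, -, hκ⟩ := exists_const_of_divOf_eq (zpow_ne_zero n hu'0) (pow_ne_zero s hv) hdiveq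
  refine ⟨κ, ?_⟩
  have e1 : ((u' ^ n : E (IsLocalRing.ResidueField ↥A) (N * c)) :
      LaurentSeries (IsLocalRing.ResidueField ↥A)) =
      (u' : LaurentSeries (IsLocalRing.ResidueField ↥A)) ^ n :=
    map_zpow₀ (IntermediateField.val _) u' n
  rw [← hu'z, ← e1, hκ, IntermediateField.coe_mul, IntermediateField.coe_pow,
    IntermediateField.coe_algebraMap_apply, Gauss.algebraMap_eq_C]

omit hg hr

/-- **(ORD')**. -/
theorem dvd_of_zsmul_Rdiv_eq {p : ℕ} [NeZero p] (hp : p.Prime)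
    [Lib.RR.IsFF (IsLocalRing.ResidueField ↥A) (E (IsLocalRing.ResidueField ↥A) (p * c))]
    (hM : ((p * c : ℕ) : (IsLocalRing.ResidueField ↥A)) ≠ 0)
    (hg : genusFF Kbar (FN (p * c)) =
      genusFF (IsLocalRing.ResidueField ↥A) (E (IsLocalRing.ResidueField ↥A) (p * c)))
    {r : Place Kbar (FN (p * c)) →
      Place (IsLocalRing.ResidueField ↥A) (E (IsLocalRing.ResidueField ↥A) (p * c))}
    (hr : IsRedMap (redFN A (p * c) hM) r)
    (ℓ : ℕ) [NeZero ℓ] [Fact ℓ.Prime] [CharP (IsLocalRing.ResidueField ↥A) ℓ]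
    (n : ℤ) (hn : n ≠ 0) (v : E (IsLocalRing.ResidueField ↥A) (p * c)) (hv : v ≠ 0)
    (hnv : n • Rdiv r (ptDiv p (zz p) (oo p)) = divOf v) (b : ℕ) (hb : ℓ ^ b ∣ p - 1) :
    ((ℓ ^ b : ℕ) : ℤ) ∣ 24 * n := by
  obtain ⟨z, hz, hzr⟩ := exists_model p A
  have hz0 : red A z ≠ 0 := by
    rw [hzr]; exact uk_ne_zero _ p hp.two_le
  have hdiv : divOf (K := Kbar) (M1.uF p) = (p - 1) • ptDiv p (zz p) (oo p) := by
    rw [M1.U.divOf_uF p hp, ← natCast_zsmul, Nat.cast_sub hp.one_lt.le, Nat.cast_one]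
  obtain ⟨κ, hκ⟩ := exists_zpow_eq hM hg hr (M1.uF p) z (by rw [M1.U.coe_uF p hp, ← hz]; rfl) hz0
    (ptDiv p (zz p) (oo p)) (p - 1) hdiv n v hv hnv
  rw [hzr] at hκ
  exact dvd_of_uk_zpow_eq ℓ p hp.two_le n hn κ _ hκ b hb

end Fermat.Agent.S15.Cusp
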