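import Fermat.Agent.S15.Cusp.Ord
import Fermat.Agent.GAL.Igusa.Final
import Fermat.Agent.GAL.INJ.ResAlgClosed

/-!
# S15 / CUSP : the order of the cuspidal class, one prime at a time
-/

set_option autoImplicit false

noncomputable section

namespace Fermat.Agent.S15.Cusp

open AlgebraicCurve ModularCurve Fermat.Agent.Lib.RR Fermat.Agent.GAL Fermat.Agent.GAL.RED
  Fermat.Agent.GAL.Hecke Fermat.Agent.GAL.Igusa Fermat.Agent.S24 Fermat.Agent.S37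

variable {p : ℕ} [NeZero p]

set_option linter.style.haveILetI false in
/-- the core of (M0), for an auxiliary factor `c` of the level. -/
theorem prime_pow_dvd_of_zsmul_cusp_eq_zero_aux (hp : p.Prime) (n : ℤ) (hn : n ≠ 0)
    (h : n • cusp p = 0) (ℓ : ℕ) (hℓ : ℓ.Prime) (b : ℕ) (hb : ℓ ^ b ∣ p - 1) (hℓp : ℓ ≠ p)
    (c : ℕ) [NeZero c] (hc : ¬ ℓ ∣ c) (hneat : 4 ∣ p * c ∨ 9 ∣ p * c) :
    ((ℓ ^ b : ℕ) : ℤ) ∣ 24 * n := by
  obtain ⟨A, hA⟩ := S13.exists_liesOverPrime_Qbar hℓ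
  haveI hchar := charP_residueField A hℓ hA
  haveI : NeZero ℓ := ⟨hℓ.ne_zero⟩
  haveI : Fact ℓ.Prime := ⟨hℓ⟩
  have hℓpc : ¬ ℓ ∣ p * c := by
    intro hd
    rcases (Nat.Prime.dvd_mul hℓ).1 hd with h1 | h1
    · exact hℓp ((Nat.prime_dvd_prime_iff_eq hℓ hp).1 h1)
    · exact hc h1
  have hM : ((p * c : ℕ) : IsLocalRing.ResidueField ↥A) ≠ 0 := by
    rw [Ne, CharP.cast_eq_zero_iff (IsLocalRing.ResidueField ↥A) ℓ]
    exact hℓpc
  haveI := INJ.isAlgClosed_residueField A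
  haveI := Igusa.isFF_E (IsLocalRing.ResidueField ↥A) (p * c) hM
  have hg : genusFF Kbar (FN (p * c)) =
      genusFF (IsLocalRing.ResidueField ↥A) (E (IsLocalRing.ResidueField ↥A) (p * c)) := by
    rw [Igusa.genusFF_eq' A (p * c) hM hneat]
    exact genusFF_congr (modularFunctionFieldBar_eq_fullC (p * c))
  obtain ⟨r, hr⟩ := RED.exists_isRedMap (redFN A (p * c) hM) (redFN_isCartesian hM) hg
  obtain ⟨w, hw, hwD⟩ := (zsmul_cusp_eq_zero_iff p n).1 h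
  obtain ⟨v, hv, -, hvD⟩ := Rdiv_divOf_mem hM hg hr w hw
  refine dvd_of_zsmul_Rdiv_eq hp hM hg hr ℓ n hn v hv ?_ b hb
  rw [← map_zsmul, hwD, hvD]

/-- **(M0)** one prime at a time.  PROOF.  `n = 0` trivial.  `b = 0` trivial.  `ℓ ≠ p` (`ℓ ∣ ℓ^b ∣ p - 1 < p`).  `A` over `ℓ`:
`S13.exists_liesOverPrime_Qbar hℓ`.  `c := 9` if `ℓ = 2`, `c := 4` otherwise (do the two cases via an auxiliary lemma with hypotheses
`(c : ℕ) [NeZero c] (hc : ¬ ℓ ∣ c) (hneat : 4 ∣ p * c ∨ 9 ∣ p * c)`).  Set up the context exactly as in the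
first 25 lines of the proof of `S37.Main_aux` (`Fermat/Agent/S37/Main.lean`): `charP_residueField A hℓ hA`, `hM`, `INJ.isAlgClosed_residueField A`,
`Igusa.isFF_E _ (p * c) hM`, `hg` from `Igusa.genusFF_eq' A (p * c) hM hneat` + `S37.genusFF_congr (modularFunctionFieldBar_eq_fullC _)`,
`RED.exists_isRedMap (redFN A (p*c) hM) (redFN_isCartesian hM) hg`.  `(zsmul_cusp_eq_zero_iff p n).1 h` gives `w`;
`n • Rdiv r (ptDiv ..) = Rdiv r (divOf w)` (`map_zsmul`) `∈ prinN A p c` (`Rdiv_divOf_mem hM hg hr w hw`), i.e. `= divOf v`, `v ≠ 0`.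
`dvd_of_zsmul_Rdiv_eq hp hM hg hr ℓ n hn v hv _ b hb` (instances `NeZero ℓ`, `Fact ℓ.Prime` by `haveI`). -/
theorem prime_pow_dvd_of_zsmul_cusp_eq_zero (hp : p.Prime) (n : ℤ) (h : n • cusp p = 0)
    (ℓ : ℕ) (hℓ : ℓ.Prime) (b : ℕ) (hb : ℓ ^ b ∣ p - 1) : ((ℓ ^ b : ℕ) : ℤ) ∣ 24 * n := by
  rcases eq_or_ne n 0 with rfl | hn
  · rw [mul_zero]
    exact dvd_zero _
  rcases Nat.eq_zero_or_pos b with rfl | hb0
  · rw [pow_zero, Nat.cast_one]
    exact one_dvd _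
  have hℓp : ℓ ≠ p := by
    rintro rfl
    have h1 : ℓ ∣ ℓ - 1 := (dvd_pow_self ℓ hb0.ne').trans hb
    have h2 := Nat.le_of_dvd (by have := hℓ.two_le; omega) h1
    have := hℓ.two_le
    omega
  by_cases h2 : ℓ = 2
  · haveI : NeZero 9 := ⟨by norm_num⟩
    refine prime_pow_dvd_of_zsmul_cusp_eq_zero_aux hp n hn h ℓ hℓ b hb hℓp 9 ?_
      (Or.inr (dvd_mul_left 9 p))
    rw [h2]
    norm_num
  · haveI : NeZero 4 := ⟨by norm_num⟩
    refine prime_pow_dvd_of_zsmul_cusp_eq_zero_aux hp n hn h ℓ hℓ b hb hℓp 4 ?_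
      (Or.inl (dvd_mul_left 4 p))
    intro hd
    have h3 : ℓ ∣ 2 := hℓ.dvd_of_dvd_pow (show ℓ ∣ 2 ^ 2 by norm_num; exact hd)
    exact h2 ((Nat.prime_dvd_prime_iff_eq hℓ Nat.prime_two).1 h3)

end Fermat.Agent.S15.Cusp
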